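import Mathlib
import Fermat.Agent.MU.Lib.RR.Hurwitz.Rel
import Fermat.Agent.MU.Lib.GoodRed.Genus
import Fermat.Agent.MU.S36.Igusa.Defs
import Fermat.Agent.MU.Lib.GoodRed.ModularGenus
import Fermat.Agent.MU.S36.Genus.SS

section MergeWrap_Lib_RR_Hurwitz_RelRed -- from Lib/RR/Hurwitz/RelRed.lean

set_option autoImplicit false
set_option linter.style.haveILetI false
set_option linter.unusedSectionVars false

noncomputable section

open AlgebraicCurve IntermediateField

namespace Fermat.Agent.RRRel

open Fermat.Agent.RR Fermat.Agent.RRHur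

section Abstract

variable {K F K' F' : Type*} [Field K] [Field F] [Algebra K F] [Field K'] [Field F']
  [Algebra K' F']

/-- **Riemann-Hurwitz upper bound for a reduction.** -/
theorem hurwitz_upper_of_fibres [IsAlgClosed K] [CharZero K]
    (h : IsRRField K F)
    {x : F} (hx : Transcendental K x) [FiniteDimensional K⟮x⟯ F] [Algebra.IsSeparable K⟮x⟯ F]
    {x' : F'}
    (hn : Module.finrank K'⟮x'⟯ F' = Module.finrank K⟮x⟯ F)
    (S : Finset K) (φ : K → K') (hφ : Set.InjOn φ (S : Set K))
    (hunr : ∀ c : K, c ∉ S →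
      Nat.card {v : Place K F // 0 < v.ord (x - algebraMap K F c)} = Module.finrank K⟮x⟯ F)
    (hfib : ∀ c ∈ S, Nat.card {v : Place K' F' // 0 < v.ord (x' - algebraMap K' F' (φ c))} ≤
      Nat.card {v : Place K F // 0 < v.ord (x - algebraMap K F c)})
    (hinf : Nat.card {v : Place K' F' // v.ord x' < 0} ≤
      Nat.card {v : Place K F // v.ord x < 0})
    (hg : genusFF K' F' ≤ genusFF K F) :
    ∃ S' : Finset K', 2 * (genusFF K' F' : ℤ) - 2 + 2 * (Module.finrank K'⟮x'⟯ F' : ℤ) ≤
      ∑ c ∈ S', ((Module.finrank K'⟮x'⟯ F' : ℤ) -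
        (Nat.card {v : Place K' F' // 0 < v.ord (x' - algebraMap K' F' c)} : ℤ)) +
      ((Module.finrank K'⟮x'⟯ F' : ℤ) - (Nat.card {v : Place K' F' // v.ord x' < 0} : ℤ)) := by
  classical
  refine ⟨S.image φ, ?_⟩
  have h0 := hurwitz_formula_fibres h hx S hunr
  rw [Finset.sum_image hφ, hn]
  have h1 : ∀ c ∈ S, ((Module.finrank K⟮x⟯ F : ℤ) -
        (Nat.card {v : Place K F // 0 < v.ord (x - algebraMap K F c)} : ℤ)) ≤
      ((Module.finrank K⟮x⟯ F : ℤ) -
        (Nat.card {v : Place K' F' // 0 < v.ord (x' - algebraMap K' F' (φ c))} : ℤ)) := by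
    intro c hc
    have := hfib c hc
    omega
  have h2 := Finset.sum_le_sum h1
  have h3 : (genusFF K' F' : ℤ) ≤ (genusFF K F : ℤ) := by exact_mod_cast hg
  omega

end Abstract

section GoodRed

open Fermat.Agent.GoodRed

variable {K k F Fk : Type} [Field K] [Field k] [Field F] [Field Fk] [Algebra K F] [Algebra k Fk]

/-- **Riemann-Hurwitz upper bound for the reduction of a `RedModel`** (inputs of the genus
equality of cluster B + Deuring's inequality). -/
theorem hurwitz_upper_of_fibreBound [IsAlgClosed K] [CharZero K] [IsAlgClosed k]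
    (M : RedModel K k F Fk) (n : ℕ) (hdeg : DegData M n) (BD : BranchData M n)
    (hK : IsRRField K F)
    (hfib : FibreBound M)
    (hinf : fibreCard k M.xbar⁻¹ 0 ≤ fibreCard K M.x⁻¹ 0)
    (hg : genusFF k Fk ≤ genusFF K F) :
    ∃ S' : Finset k, 2 * (genusFF k Fk : ℤ) - 2 + 2 * (Module.finrank k⟮M.xbar⟯ Fk : ℤ) ≤
      ∑ c ∈ S', ((Module.finrank k⟮M.xbar⟯ Fk : ℤ) -
        (Nat.card {v : Place k Fk // 0 < v.ord (M.xbar - algebraMap k Fk c)} : ℤ)) +
      ((Module.finrank k⟮M.xbar⟯ Fk : ℤ) - (Nat.card {v : Place k Fk // v.ord M.xbar < 0} : ℤ)) := by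
  have hx := M.ge_x_transcendental
  have hxk : Transcendental k M.xbar := M.x_trans
  haveI : FiniteDimensional K⟮M.x⟯ F :=
    Module.finite_of_finrank_pos (by rw [hdeg.deg]; exact hdeg.pos)
  haveI : FiniteDimensional k⟮M.xbar⟯ Fk :=
    Module.finite_of_finrank_pos (by rw [hdeg.degk]; exact hdeg.pos)
  haveI : Algebra.IsSeparable k⟮M.xbar⟯ Fk := hdeg.sepk
  haveI : Algebra.IsSeparable K⟮M.x⟯ F := Algebra.IsSeparable.of_integral _ _
  refine hurwitz_upper_of_fibres hK hx (by rw [hdeg.deg, hdeg.degk])
    BD.S M.resFun ?_ ?_ ?_ ?_ hg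
  · intro c hc c' hc' hcc
    have hcA := BD.S_mem c hc
    have hcA' := BD.S_mem c' hc'
    rw [M.resFun_of_mem hcA, M.resFun_of_mem hcA'] at hcc
    exact BD.S_inj c hc c' hc' hcA hcA' hcc
  · intro c hc
    rw [← fibreCard_eq_card_zeros hx, BD.unram c hc, hdeg.deg]
  · intro c hc
    have hcA := BD.S_mem c hc
    rw [← fibreCard_eq_card_zeros hx, ← fibreCard_eq_card_zeros hxk, M.resFun_of_mem hcA]
    exact hfib c hcA
  · rw [← fibreCard_inv_eq_card_poles hx, ← fibreCard_inv_eq_card_poles hxk]
    exact hinf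

/-- **relative Riemann-Hurwitz lower bound over a good reduction**: `E = Fk` the reduction of a
`RedModel`, `φ : Fk → F'` finite of degree `e`, separable over `k(x̄)`, `T` totally ramified:
`2 + 2 e (g(Fk) - 1) + (e - 1) |T| ≤ 2 g(F')`. -/
theorem two_genus_ge_over_goodRed [IsAlgClosed K] [CharZero K] [IsAlgClosed k]
    (M : RedModel K k F Fk) (n : ℕ) (hdeg : DegData M n) (BD : BranchData M n)
    (hK : IsRRField K F) (hk : IsRRField k Fk)
    (hfib : FibreBound M)
    (hinf : fibreCard k M.xbar⁻¹ 0 ≤ fibreCard K M.x⁻¹ 0)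
    (hg : genusFF k Fk ≤ genusFF K F)
    {F' : Type} [Field F'] [Algebra k F'] (hF' : IsRRField k F')
    (φ : Fk →ₐ[k] F') (hφ : φ.toRingHom.IsIntegral)
    [FiniteDimensional k⟮φ M.xbar⟯ F'] [Algebra.IsSeparable k⟮φ M.xbar⟯ F']
    (T : Finset (Place k Fk))
    (hT : ∀ v ∈ T, ∀ w w' : Place k F', w.restrictAlong φ hφ = v → w'.restrictAlong φ hφ = v →
      w = w') :
    2 + 2 * (finrankAlong k φ : ℤ) * ((genusFF k Fk : ℤ) - 1) +
        ((finrankAlong k φ : ℤ) - 1) * (T.card : ℤ) ≤ 2 * (genusFF k F' : ℤ) := by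
  have hxk : Transcendental k M.xbar := M.x_trans
  haveI : FiniteDimensional k⟮M.xbar⟯ Fk :=
    Module.finite_of_finrank_pos (by rw [hdeg.degk]; exact hdeg.pos)
  obtain ⟨S', hS'⟩ := hurwitz_upper_of_fibreBound M n hdeg BD hK hfib hinf hg
  exact two_genus_ge_of_totally_ramified hk hF' φ hφ hxk S' hS' T hT

end GoodRed

end Fermat.Agent.RRRel
end
end MergeWrap_Lib_RR_Hurwitz_RelRed

section MergeWrap_S36_Genus_IgGenus -- from S36/Genus/IgGenus.lean

set_option autoImplicit false
set_option linter.style.haveILetI false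
set_option linter.unusedSectionVars false

noncomputable section

open AlgebraicCurve IntermediateField ModularCurve

namespace Fermat.Agent.S36G

open Fermat.Agent.RR Fermat.Agent.RRHur Fermat.Agent.RRRel Fermat.Agent.RedTr

/-! ### generalities on inclusions of intermediate fields -/

section Incl

variable {K L : Type*} [Field K] [Field L] [Algebra K L]

/-- a morphism of function fields is finite (any characteristic). -/
theorem ig_finiteAlong {E F : Type*} [Field E] [Field F] [Algebra K E] [Algebra K F]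
    (φ : E →ₐ[K] F) (x : E) [FiniteDimensional K⟮φ x⟯ F] : FiniteAlong K φ := by
  letI := algebraAlong φ
  obtain ⟨S, hS⟩ := Module.Finite.fg_top (R := K⟮φ x⟯) (M := F)
  have hle : K⟮φ x⟯ ≤ φ.fieldRange := by
    rw [IntermediateField.adjoin_le_iff, Set.singleton_subset_iff]
    exact ⟨x, rfl⟩
  show Module.Finite E F
  refine ⟨⟨S, ?_⟩⟩
  rw [eq_top_iff]
  rintro z -
  have hz : z ∈ Submodule.span K⟮φ x⟯ (S : Set F) := by
    rw [hS]
    trivial
  induction hz using Submodule.span_induction with
  | mem w hw => exact Submodule.subset_span hw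
  | zero => exact zero_mem _
  | add a b _ _ ha hb => exact add_mem ha hb
  | smul c w _ hw =>
    obtain ⟨y, hy⟩ := hle c.2
    have h1 : c • w = y • w := by
      rw [Algebra.smul_def, Algebra.smul_def]
      congr 1
      exact hy.symm
    rw [h1]
    exact Submodule.smul_mem _ _ hw

/-- a finite morphism is integral. -/
theorem ig_isIntegral_of_finiteAlong {E F : Type*} [Field E] [Field F] [Algebra K E]
    [Algebra K F] (φ : E →ₐ[K] F) (hfin : FiniteAlong K φ) : φ.toRingHom.IsIntegral := by
  letI := algebraAlong φ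
  haveI : Module.Finite E F := hfin
  intro z
  exact (Algebra.IsIntegral.of_finite E F).isIntegral z

/-- the degree along an inclusion of intermediate fields is the relative degree. -/
theorem ig_finrankAlong_inclusion {A B : IntermediateField K L} (h : A ≤ B) :
    finrankAlong K (IntermediateField.inclusion h) = IntermediateField.relfinrank A B := by
  rw [IntermediateField.relfinrank_eq_finrank_of_le h]
  letI := algebraAlong (IntermediateField.inclusion h)
  show Module.finrank ↥A ↥B = Module.finrank ↥A ↥(IntermediateField.extendScalars h)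
  let e : ↥B ≃ₗ[↥A] ↥(IntermediateField.extendScalars h) :=
    { toFun := fun x => ⟨x.1, x.2⟩
      invFun := fun x => ⟨x.1, x.2⟩
      map_add' := fun _ _ => rfl
      map_smul' := fun _ _ => rfl
      left_inv := fun _ => rfl
      right_inv := fun _ => rfl }
  exact e.finrank_eq

end Incl

/-! ### the Igusa component -/

section Igusa

set_option synthInstance.maxHeartbeats 400000
set_option maxHeartbeats 1000000

local notation "Qb" => AlgebraicClosure ℚ

attribute [local instance 10000] SubalgebraClass.toAlgebra HahnSeries.powerSeriesAlgebra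

open Fermat.Agent.GaussInt Fermat.Agent.GoodRed Fermat.Agent.BadRed

/-- the inclusion `k(Z) → Fk_m = k(Z)(θ j̄)`. -/
abbrev igIncl (k : Type*) [Field k] (M₀ : ℕ) :
    ↥(modularFunctionFieldFullC k M₀) →ₐ[k] ↥(igField k M₀) :=
  IntermediateField.inclusion (fullC_le_igField k M₀)

/-- **the bound `hM` of `gen_genus_le_modular` for the Igusa component**, `q ∉ {2, 3}`, LOCAL
form: the degree and the total ramification at the supersingular places are asked at
`k = ResidueField A` only. -/
theorem ig_hM_at (M₀ : ℕ) [NeZero M₀] {q : ℕ} (hq : q.Prime) (hqM : ¬ q ∣ M₀) (h2 : q ≠ 2)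
    (h3 : q ≠ 3) {A : ValuationSubring Qb} (hA : A.LiesOverPrime q)
    (hTot : ∀ P : Place (IsLocalRing.ResidueField A)
        ↥(modularFunctionFieldFullC (IsLocalRing.ResidueField A) M₀),
      IsSSPlace (IsLocalRing.ResidueField A) M₀ q P →
        ∀ Q Q' : Place (IsLocalRing.ResidueField A) ↥(igField (IsLocalRing.ResidueField A) M₀),
          (∀ x : ↥(modularFunctionFieldFullC (IsLocalRing.ResidueField A) M₀), 0 < P.ord x →
            0 < Q.ord (igIncl (IsLocalRing.ResidueField A) M₀ x)) →
          (∀ x : ↥(modularFunctionFieldFullC (IsLocalRing.ResidueField A) M₀), 0 < P.ord x →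
            0 < Q'.ord (igIncl (IsLocalRing.ResidueField A) M₀ x)) →
          Q = Q')
    (hDeg : IntermediateField.relfinrank
        (modularFunctionFieldFullC (IsLocalRing.ResidueField A) M₀)
        (igField (IsLocalRing.ResidueField A) M₀) = midDeg q)
    (hRR : IsRRField (IsLocalRing.ResidueField A) ↥(igField (IsLocalRing.ResidueField A) M₀))
    (hsep : Algebra.IsSeparable
      (IntermediateField.adjoin (IsLocalRing.ResidueField A)
        {igIncl (IsLocalRing.ResidueField A) M₀
          (Fermat.Agent.RRMod.jC (IsLocalRing.ResidueField A) M₀)})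
      ↥(igField (IsLocalRing.ResidueField A) M₀)) :
    2 + 2 * (midDeg q : ℤ) * ((genusFF (IsLocalRing.ResidueField A)
        ↥(modularFunctionFieldFullC (IsLocalRing.ResidueField A) M₀) : ℤ) - 1) +
      ((midDeg q : ℤ) - 1) *
        (Nat.card {P : Place (IsLocalRing.ResidueField A)
          ↥(modularFunctionFieldFullC (IsLocalRing.ResidueField A) M₀) //
            IsSSPlace (IsLocalRing.ResidueField A) M₀ q P} : ℤ) ≤
        2 * (genusFF (IsLocalRing.ResidueField A)
          ↥(igField (IsLocalRing.ResidueField A) M₀) : ℤ) := by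
  haveI := isAlgClosed_residue A
  haveI := infinite_residue A
  haveI : Fact q.Prime := ⟨hq⟩
  haveI : CharP (IsLocalRing.ResidueField A) q := Fermat.Agent.FrobTrace.charP_residueField A hA
  have hR := rangeAt M₀ hq hA hqM
  have hxb := modularRedModel_xbar M₀ hq hA hR
  have htr : Transcendental (IsLocalRing.ResidueField A)
      (igIncl (IsLocalRing.ResidueField A) M₀
        (Fermat.Agent.RRMod.jC (IsLocalRing.ResidueField A) M₀)) := by
    have h0 := Fermat.Agent.RRMod.transcendental_jC (IsLocalRing.ResidueField A) M₀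
    intro halg
    apply h0
    exact (isAlgebraic_algHom_iff (igIncl (IsLocalRing.ResidueField A) M₀)
      (igIncl (IsLocalRing.ResidueField A) M₀).injective).mp halg
  haveI hfd : FiniteDimensional
      (IntermediateField.adjoin (IsLocalRing.ResidueField A)
        {igIncl (IsLocalRing.ResidueField A) M₀
          (Fermat.Agent.RRMod.jC (IsLocalRing.ResidueField A) M₀)})
      ↥(igField (IsLocalRing.ResidueField A) M₀) :=
    fundIdK_finiteDimensional hRR htr
  have hφ : (igIncl (IsLocalRing.ResidueField A) M₀).toRingHom.IsIntegral :=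
    ig_isIntegral_of_finiteAlong _ (ig_finiteAlong _
      (Fermat.Agent.RRMod.jC (IsLocalRing.ResidueField A) M₀))
  haveI hfin := gen_finite_isSSPlace M₀ hq hA
  haveI : FiniteDimensional
      (IntermediateField.adjoin (IsLocalRing.ResidueField A)
        {igIncl (IsLocalRing.ResidueField A) M₀ (modularRedModel M₀ hq hA hR).xbar})
      ↥(igField (IsLocalRing.ResidueField A) M₀) := by
    rw [hxb]
    exact hfd
  haveI : Algebra.IsSeparable
      (IntermediateField.adjoin (IsLocalRing.ResidueField A)
        {igIncl (IsLocalRing.ResidueField A) M₀ (modularRedModel M₀ hq hA hR).xbar})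
      ↥(igField (IsLocalRing.ResidueField A) M₀) := by
    rw [hxb]
    exact hsep
  classical
  have hTfin : {P : Place (IsLocalRing.ResidueField A)
      ↥(modularFunctionFieldFullC (IsLocalRing.ResidueField A) M₀) |
        IsSSPlace (IsLocalRing.ResidueField A) M₀ q P}.Finite := Set.finite_coe_iff.mp hfin
  set T : Finset (Place (IsLocalRing.ResidueField A)
      ↥(modularFunctionFieldFullC (IsLocalRing.ResidueField A) M₀)) := hTfin.toFinset with hTdef
  have hTmem : ∀ P, P ∈ T ↔ IsSSPlace (IsLocalRing.ResidueField A) M₀ q P := by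
    intro P
    rw [hTdef, Set.Finite.mem_toFinset]
    rfl
  have hTcard : Nat.card {P : Place (IsLocalRing.ResidueField A)
      ↥(modularFunctionFieldFullC (IsLocalRing.ResidueField A) M₀) //
        IsSSPlace (IsLocalRing.ResidueField A) M₀ q P} = T.card := by
    rw [hTdef, ← Nat.card_eq_card_finite_toFinset hTfin]
    rfl
  have key := two_genus_ge_over_goodRed (modularRedModel M₀ hq hA hR) _
    (modularDegData M₀ hq hA hR hqM) (modularBranchData M₀ hq hA hR h2 h3)
    (Fermat.Agent.RRMod.isRRField_bar M₀)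
    (Fermat.Agent.RRMod.isRRField_fullC' (IsLocalRing.ResidueField A) M₀)
    (modular_fibreBound M₀ hq hA hR hqM h2 h3)
    (FibreBound.at_infty (modular_fibreBound_inv M₀ hq hA hR hqM h2 h3))
    (Fermat.Agent.Deuring.genusFF_le (modularValSetup A q M₀ hq hA hqM)
      (hasLattice_modularValSetup A q M₀ hq hA hqM))
    hRR (igIncl (IsLocalRing.ResidueField A) M₀) hφ T ?_
  · rw [ig_finrankAlong_inclusion, hDeg, ← hTcard] at key
    exact key
  · intro v hv w w' hw hw'
    rw [hTmem] at hv
    refine hTot v hv w w' ?_ ?_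
    · intro x hx
      rw [← hw] at hx
      exact (ord_map_pos_iff _ hφ w x).mpr hx
    · intro x hx
      rw [← hw'] at hx
      exact (ord_map_pos_iff _ hφ w' x).mpr hx

/-- **the bound `hM` of `gen_genus_le_modular` for the Igusa component**, `q ∉ {2, 3}`, from the
degree (IG2), the total ramification at the supersingular places (IG3), (RR) and the
separability of `Fk_m / k(j̄)`. -/
theorem ig_hM (M₀ : ℕ) [NeZero M₀] {q : ℕ} (hq : q.Prime) (hqM : ¬ q ∣ M₀) (h2 : q ≠ 2)
    (h3 : q ≠ 3) {A : ValuationSubring Qb} (hA : A.LiesOverPrime q)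
    (hTot : IgTotRam M₀ q) (hDeg : IgDegree M₀ q)
    (hRR : IsRRField (IsLocalRing.ResidueField A) ↥(igField (IsLocalRing.ResidueField A) M₀))
    (hsep : Algebra.IsSeparable
      (IntermediateField.adjoin (IsLocalRing.ResidueField A)
        {igIncl (IsLocalRing.ResidueField A) M₀
          (Fermat.Agent.RRMod.jC (IsLocalRing.ResidueField A) M₀)})
      ↥(igField (IsLocalRing.ResidueField A) M₀))
    (hno : ∀ P : Place (IsLocalRing.ResidueField A)
        ↥(modularFunctionFieldFullC (IsLocalRing.ResidueField A) M₀),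
      IsSSPlace (IsLocalRing.ResidueField A) M₀ q P →
        ∀ u : ↥(modularFunctionFieldFullC (IsLocalRing.ResidueField A) M₀),
          (u : LaurentSeries (IsLocalRing.ResidueField A)) =
            ssFun (IsLocalRing.ResidueField A) q → P.ord u = 12) :
    2 + 2 * (midDeg q : ℤ) * ((genusFF (IsLocalRing.ResidueField A)
        ↥(modularFunctionFieldFullC (IsLocalRing.ResidueField A) M₀) : ℤ) - 1) +
      ((midDeg q : ℤ) - 1) *
        (Nat.card {P : Place (IsLocalRing.ResidueField A)
          ↥(modularFunctionFieldFullC (IsLocalRing.ResidueField A) M₀) //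
            IsSSPlace (IsLocalRing.ResidueField A) M₀ q P} : ℤ) ≤
        2 * (genusFF (IsLocalRing.ResidueField A)
          ↥(igField (IsLocalRing.ResidueField A) M₀) : ℤ) := by
  haveI := isAlgClosed_residue A
  haveI : Fact q.Prime := ⟨hq⟩
  haveI : CharP (IsLocalRing.ResidueField A) q := Fermat.Agent.FrobTrace.charP_residueField A hA
  exact ig_hM_at M₀ hq hqM h2 h3 hA
    (fun P hP Q Q' hQ hQ' =>
      hTot hq hqM (IsLocalRing.ResidueField A) P hP (hno P hP) Q Q' hQ hQ')
    (hDeg hq hqM (IsLocalRing.ResidueField A)) hRR hsep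

end Igusa

end Fermat.Agent.S36G
end
end MergeWrap_S36_Genus_IgGenus
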