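import Mathlib
import Fermat.Agent.MU.Lib.BadRed.Mod.SSArith
import Fermat.Agent.MU.Lib.GenusEq.GenusFM

section MergeWrap_S36_Genus_Arith -- from S36/Genus/Arith.lean

/-!
# Cluster G (S36), seat GENUS: the arithmetic of the genus formula at level `q² M₀`  (helper98)

`q` prime, `q ∤ M₀`, `M₀` without elliptic points (`ν₂(M₀) = ν₃(M₀) = 0`, guaranteed by the
auxiliary level).  Then

  `g(q² M₀) + q + (q + 1) g(M₀) = (q + 1) (g(q M₀) + 1)`,

i.e. `g(q² M₀) = (q + 1) (g₀ + s₀) - q` with `s₀ = g(q M₀) + 1 - 2 g₀ = (q - 1) ψ(M₀) / 12`.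

* `gen_cuspCount_sq`, `gen_dedekindPsi_sq`, `gen_nuTwo_sq`, `gen_nuThree_sq`: the numerics;
* `gen_genusFormula_sq`: the relation for `genusFormula` (in `ℚ`);
* `gen_genusFF_sq`: the relation for the genera of the function fields (in `ℕ`).
-/

set_option autoImplicit false

open ModularCurve AlgebraicCurve

namespace Fermat.Agent.S36G

open Fermat.Agent.BadRed.SSA

/-- divisors of `q * (q * N)` for a prime `q`. -/
theorem gen_divisors_sq {q N : ℕ} (hq : q.Prime) (hN : N ≠ 0) :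
    (q * (q * N)).divisors = N.divisors ∪ N.divisors.image (fun d => q * d)
      ∪ N.divisors.image (fun d => q * (q * d)) := by
  rw [divisors_prime_mul hq (Nat.mul_ne_zero hq.ne_zero hN), divisors_prime_mul hq hN,
    Finset.image_union, Finset.image_image]
  ext d
  simp only [Finset.mem_union, Finset.mem_image, Function.comp_apply]
  constructor
  · rintro ((h | h) | h | h)
    · exact Or.inl (Or.inl h)
    · exact Or.inl (Or.inr h)
    · exact Or.inl (Or.inr h)
    · exact Or.inr h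
  · rintro ((h | h) | h)
    · exact Or.inl (Or.inl h)
    · exact Or.inl (Or.inr h)
    · exact Or.inr (Or.inr h)

/-- `cuspCount (q² N) = (q + 1) cuspCount N` for a prime `q ∤ N`. -/
theorem gen_cuspCount_sq {q N : ℕ} (hq : q.Prime) (hqN : ¬ q ∣ N) (hN : N ≠ 0) :
    cuspCount (q * (q * N)) = (q + 1) * cuspCount N := by
  have hd1 : Disjoint N.divisors (N.divisors.image (fun d => q * d)) :=
    disjoint_divisors_image hqN
  have hd2 : Disjoint (N.divisors ∪ N.divisors.image (fun d => q * d))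
      (N.divisors.image (fun d => q * (q * d))) := by
    rw [Finset.disjoint_left]
    intro d hd hd'
    rw [Finset.mem_image] at hd'
    obtain ⟨d', hd'N, rfl⟩ := hd'
    have hd'N' := Nat.dvd_of_mem_divisors hd'N
    have hd'0 : d' ≠ 0 := fun h => hN (by rw [h] at hd'N'; exact Nat.eq_zero_of_zero_dvd hd'N')
    rcases Finset.mem_union.mp hd with h | h
    · exact hqN ((dvd_mul_right q (q * d')).trans (Nat.dvd_of_mem_divisors h))
    · rw [Finset.mem_image] at h
      obtain ⟨d'', hd'', h⟩ := h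
      have h1 : d'' = q * d' := Nat.eq_of_mul_eq_mul_left hq.pos h
      exact hqN ((h1 ▸ dvd_mul_right q d').trans (Nat.dvd_of_mem_divisors hd''))
  unfold cuspCount
  rw [gen_divisors_sq hq hN, Finset.sum_union hd2, Finset.sum_union hd1,
    Finset.sum_image (fun a _ b _ h => Nat.eq_of_mul_eq_mul_left hq.pos h),
    Finset.sum_image (fun a _ b _ h =>
      Nat.eq_of_mul_eq_mul_left hq.pos (Nat.eq_of_mul_eq_mul_left hq.pos h))]
  have e1 : ∀ d ∈ N.divisors, (d.gcd (q * (q * N) / d)).totient = (d.gcd (N / d)).totient := by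
    intro d hd
    have hdN := Nat.dvd_of_mem_divisors hd
    have hqd : ¬ q ∣ d := fun h => hqN (h.trans hdN)
    have hcop : q.Coprime d := (Nat.Prime.coprime_iff_not_dvd hq).mpr hqd
    rw [Nat.mul_div_assoc q (hdN.mul_left q), Nat.mul_div_assoc q hdN,
      Nat.Coprime.gcd_mul_left_cancel_right _ hcop, Nat.Coprime.gcd_mul_left_cancel_right _ hcop]
  have e2 : ∀ d ∈ N.divisors, ((q * d).gcd (q * (q * N) / (q * d))).totient =
      (q - 1) * (d.gcd (N / d)).totient := by
    intro d hd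
    have hdN := Nat.dvd_of_mem_divisors hd
    have hqd : ¬ q ∣ d := fun h => hqN (h.trans hdN)
    have hqg : ¬ q ∣ d.gcd (N / d) := fun h => hqd (h.trans (Nat.gcd_dvd_left _ _))
    have hcop : q.Coprime (d.gcd (N / d)) := (Nat.Prime.coprime_iff_not_dvd hq).mpr hqg
    rw [Nat.mul_div_mul_left _ _ hq.pos, Nat.mul_div_assoc q hdN, Nat.gcd_mul_left,
      Nat.totient_mul hcop, Nat.totient_prime hq]
  have e3 : ∀ d ∈ N.divisors, ((q * (q * d)).gcd (q * (q * N) / (q * (q * d)))).totient =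
      (d.gcd (N / d)).totient := by
    intro d hd
    have hdN := Nat.dvd_of_mem_divisors hd
    have hqd : ¬ q ∣ N / d := fun h => hqN (h.trans (Nat.div_dvd_of_dvd hdN))
    have hcop : q.Coprime (N / d) := (Nat.Prime.coprime_iff_not_dvd hq).mpr hqd
    rw [Nat.mul_div_mul_left _ _ hq.pos, Nat.mul_div_mul_left _ _ hq.pos,
      Nat.Coprime.gcd_mul_left_cancel _ hcop, Nat.Coprime.gcd_mul_left_cancel _ hcop]
  rw [Finset.sum_congr rfl e1, Finset.sum_congr rfl e2, Finset.sum_congr rfl e3,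
    ← Finset.mul_sum]
  have hq1 : 1 ≤ q := hq.one_le
  generalize ∑ d ∈ N.divisors, (d.gcd (N / d)).totient = C
  have : q + 1 = 1 + (q - 1) + 1 := by omega
  rw [this]
  ring

/-- `ψ (q² N) = q (q + 1) ψ(N)` for a prime `q ∤ N`. -/
theorem gen_dedekindPsi_sq {q N : ℕ} (hq : q.Prime) (hqN : ¬ q ∣ N) :
    dedekindPsi (q * (q * N)) = q * (q + 1) * dedekindPsi N := by
  have hcop : (q ^ 2).Coprime N :=
    Nat.Coprime.pow_left 2 ((Nat.Prime.coprime_iff_not_dvd hq).mpr hqN)
  have e : q * (q * N) = q ^ 2 * N := by ring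
  rw [e, Fermat.Agent.S20.dedekindPsi_mul hcop]
  have h := Fermat.Agent.S20.dedekindPsi_prime_pow (p := q) (k := 1) hq
  rw [show (1 + 1 : ℕ) = 2 from rfl, pow_one] at h
  rw [h]
  ring

theorem gen_nuTwo_sq {q N : ℕ} (hq : q.Prime) (hqN : ¬ q ∣ N) (h : nuTwo N = 0) :
    nuTwo (q * (q * N)) = 0 := by
  have hcop : (q ^ 2).Coprime N :=
    Nat.Coprime.pow_left 2 ((Nat.Prime.coprime_iff_not_dvd hq).mpr hqN)
  have e : q * (q * N) = q ^ 2 * N := by ring
  rw [e, nuTwo_mul hcop, h, mul_zero]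

theorem gen_nuThree_sq {q N : ℕ} (hq : q.Prime) (hqN : ¬ q ∣ N) (h : nuThree N = 0) :
    nuThree (q * (q * N)) = 0 := by
  have hcop : (q ^ 2).Coprime N :=
    Nat.Coprime.pow_left 2 ((Nat.Prime.coprime_iff_not_dvd hq).mpr hqN)
  have e : q * (q * N) = q ^ 2 * N := by ring
  rw [e, nuThree_mul hcop, h, mul_zero]

theorem gen_nuTwo_mul {q N : ℕ} (hq : q.Prime) (hqN : ¬ q ∣ N) (h : nuTwo N = 0) :
    nuTwo (q * N) = 0 := by
  rw [nuTwo_mul ((Nat.Prime.coprime_iff_not_dvd hq).mpr hqN), h, mul_zero]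

theorem gen_nuThree_mul {q N : ℕ} (hq : q.Prime) (hqN : ¬ q ∣ N) (h : nuThree N = 0) :
    nuThree (q * N) = 0 := by
  rw [nuThree_mul ((Nat.Prime.coprime_iff_not_dvd hq).mpr hqN), h, mul_zero]

/-- the genus formula at level `q² N`, `N` without elliptic points. -/
theorem gen_genusFormula_sq {q N : ℕ} (hq : q.Prime) (hqN : ¬ q ∣ N) (hN : N ≠ 0)
    (h2 : nuTwo N = 0) (h3 : nuThree N = 0) :
    genusFormula (q * (q * N)) + q + ((q : ℚ) + 1) * genusFormula N =
      ((q : ℚ) + 1) * (genusFormula (q * N) + 1) := by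
  unfold genusFormula
  rw [gen_dedekindPsi_sq hq hqN, gen_nuTwo_sq hq hqN h2, gen_nuThree_sq hq hqN h3,
    gen_cuspCount_sq hq hqN hN, dedekindPsi_prime_mul hq hqN, gen_nuTwo_mul hq hqN h2,
    gen_nuThree_mul hq hqN h3, cuspCount_prime_mul hq hqN hN, h2, h3]
  push_cast
  ring

/-- the genus formula at level `q N`, `N` without elliptic points:
`12 g(qN) + 12 = 24 g(N) + (q - 1) ψ(N)`. -/
theorem gen_genusFormula_mul {q N : ℕ} (hq : q.Prime) (hqN : ¬ q ∣ N) (hN : N ≠ 0)
    (h2 : nuTwo N = 0) (h3 : nuThree N = 0) :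
    12 * genusFormula (q * N) + 12 = 24 * genusFormula N + ((q : ℚ) - 1) * (dedekindPsi N : ℚ) := by
  rw [twelve_genusFormula_prime_mul hq hqN hN, h2, h3]
  push_cast
  ring

local notation "Qb" => AlgebraicClosure ℚ

/-- **GENUS-ARITH**: `g(q² M₀) + q + (q + 1) g(M₀) = (q + 1) (g(q M₀) + 1)` for the genera of the
function fields of `X₀` over `ℚ̄` (`q ∤ M₀` prime, `M₀` without elliptic points). -/
theorem gen_genusFF_sq {M₀ q N₁ N₂ : ℕ} [NeZero M₀] [NeZero N₁] [NeZero N₂] (hq : q.Prime)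
    (hqM : ¬ q ∣ M₀) (hN₁ : N₁ = q * M₀) (hN₂ : N₂ = q * (q * M₀))
    (h2 : nuTwo M₀ = 0) (h3 : nuThree M₀ = 0) :
    genusFF Qb ↥(modularFunctionFieldBar N₂) + q +
        (q + 1) * genusFF Qb ↥(modularFunctionFieldBar M₀) =
      (q + 1) * (genusFF Qb ↥(modularFunctionFieldBar N₁) + 1) := by
  subst hN₁
  subst hN₂
  have h := gen_genusFormula_sq hq hqM (NeZero.ne M₀) h2 h3
  rw [← Fermat.Agent.GenusEq.genusFF_modularFunctionFieldBar M₀,
    ← Fermat.Agent.GenusEq.genusFF_modularFunctionFieldBar (q * M₀),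
    ← Fermat.Agent.GenusEq.genusFF_modularFunctionFieldBar (q * (q * M₀))] at h
  exact_mod_cast h

end Fermat.Agent.S36G
end MergeWrap_S36_Genus_Arith
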